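import Mathlib

set_option autoImplicit false

/-! # Short vectors (Minkowski) for Hermitian metrics over totally complex fields -/

namespace Fermat.Agent.LT

open NumberField NumberField.InfinitePlace NumberField.mixedEmbedding MeasureTheory Module
open scoped NNReal ENNReal

variable (F : Type*) [Field F]

/-- multiplication by `z` on complex coordinates -/
noncomputable def zmul (z : InfinitePlace F → ℂ) : mixedSpace F →ₗ[ℝ] mixedSpace F where
  toFun x := (0, fun w => z w.1 * x.2 w)
  map_add' x y := by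
    ext w
    · simp
    · simp [mul_add]
  map_smul' c x := by
    ext w
    · simp
    · simp only [RingHom.id_apply, Prod.smul_snd, Pi.smul_apply, Complex.real_smul]
      ring

/-- the sheared convex body -/
def shear (f f' : InfinitePlace F → ℝ≥0) (z : InfinitePlace F → ℂ) :
    Set (mixedSpace F × mixedSpace F) :=
  {p | p.1 ∈ convexBodyLT F f ∧ p.2 + zmul F z p.1 ∈ convexBodyLT F f'}

variable [NumberField F]

theorem isOpen_convexBodyLT (f : InfinitePlace F → ℝ≥0) : IsOpen (convexBodyLT F f) := by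
  apply IsOpen.prod
  · exact isOpen_set_pi Set.finite_univ fun _ _ => Metric.isOpen_ball
  · exact isOpen_set_pi Set.finite_univ fun _ _ => Metric.isOpen_ball

theorem measurableSet_shear (f f' : InfinitePlace F → ℝ≥0) (z : InfinitePlace F → ℂ) :
    MeasurableSet (shear F f f' z) := by
  apply IsOpen.measurableSet
  apply IsOpen.inter
  · exact (isOpen_convexBodyLT F f).preimage continuous_fst
  · refine (isOpen_convexBodyLT F f').preimage ?_
    refine continuous_snd.add ?_
    exact (LinearMap.continuous_of_finiteDimensional (zmul F z)).comp continuous_fst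

noncomputable instance instBorelMixed : BorelSpace (mixedSpace F) := by
  unfold mixedSpace
  infer_instance

instance instSCMixed : SecondCountableTopology (mixedSpace F) := by
  unfold mixedSpace
  infer_instance

open scoped Classical in
theorem volume_shear (f f' : InfinitePlace F → ℝ≥0) (z : InfinitePlace F → ℂ) :
    volume (shear F f f' z) = volume (convexBodyLT F f) * volume (convexBodyLT F f') := by
  rw [Measure.volume_eq_prod, Measure.prod_apply (measurableSet_shear F f f' z)]
  have h : ∀ x : mixedSpace F, volume (Prod.mk x ⁻¹' shear F f f' z) =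
      (convexBodyLT F f).indicator (fun _ => volume (convexBodyLT F f')) x := by
    intro x
    by_cases hx : x ∈ convexBodyLT F f
    · rw [Set.indicator_of_mem hx]
      have : Prod.mk x ⁻¹' shear F f f' z = (fun y => y + zmul F z x) ⁻¹' convexBodyLT F f' := by
        ext y
        exact ⟨fun h => h.2, fun h => ⟨hx, h⟩⟩
      rw [this, measure_preimage_add_right]
    · rw [Set.indicator_of_notMem hx]
      have : Prod.mk x ⁻¹' shear F f f' z = ∅ := by
        ext y
        simp only [Set.mem_preimage, Set.mem_empty_iff_false, iff_false]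
        exact fun h => hx h.1
      rw [this, measure_empty]
  simp_rw [h]
  rw [lintegral_indicator_const (isOpen_convexBodyLT F f).measurableSet, mul_comm]

/-- **Minkowski**: short vectors in `𝓞²` for all Hermitian metrics -/
theorem exists_short [IsTotallyComplex F] : ∃ C : ℝ, 1 ≤ C ∧
    ∀ (z : InfinitePlace F → ℂ) (y : InfinitePlace F → ℝ), (∀ w, 0 < y w) →
      ∃ c d : 𝓞 F, (c ≠ 0 ∨ d ≠ 0) ∧ ∀ w : InfinitePlace F,
        ‖w.embedding (c : F) * z w + w.embedding (d : F)‖ ^ 2 +
          ‖w.embedding (c : F)‖ ^ 2 * y w ^ 2 ≤ C * y w := by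
  classical
  let b := (latticeBasis F).prod (latticeBasis F)
  have hfin : volume (ZSpan.fundamentalDomain b) < ∞ :=
    (ZSpan.fundamentalDomain_isBounded b).measure_lt_top
  set V : ℝ≥0∞ := volume (ZSpan.fundamentalDomain b) * 2 ^ finrank ℝ (mixedSpace F × mixedSpace F)
    with hV
  have hVfin : V < ∞ := ENNReal.mul_lt_top hfin (by simp)
  obtain ⟨t, ht1, htV⟩ : ∃ t : ℝ≥0, 1 ≤ t ∧ V < (t : ℝ≥0∞) := by
    refine ⟨max 1 (V.toNNReal + 1), le_max_left _ _, ?_⟩
    calc V = (V.toNNReal : ℝ≥0∞) := (ENNReal.coe_toNNReal hVfin.ne).symm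
      _ < ((V.toNNReal + 1 : ℝ≥0) : ℝ≥0∞) := by
        exact_mod_cast lt_add_one _
      _ ≤ _ := by exact_mod_cast le_max_right _ _
  have ht1' : (1 : ℝ) ≤ t := by exact_mod_cast ht1
  refine ⟨2 * t ^ 2, by nlinarith, fun z y hy => ?_⟩
  let f : InfinitePlace F → ℝ≥0 := fun w => t / NNReal.sqrt (y w).toNNReal
  let f' : InfinitePlace F → ℝ≥0 := fun w => t * NNReal.sqrt (y w).toNNReal
  have hsq : ∀ w, NNReal.sqrt (y w).toNNReal ≠ 0 := by
    intro w
    rw [ne_eq, NNReal.sqrt_eq_zero, Real.toNNReal_eq_zero, not_le]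
    exact hy w
  have hff' : ∀ w, f w * f' w = t ^ 2 := by
    intro w
    simp only [f, f']
    field_simp [hsq w]
  have hvol : V < volume (shear F f f' z) := by
    refine htV.trans_le ?_
    rw [volume_shear, convexBodyLT_volume, convexBodyLT_volume]
    rw [mul_mul_mul_comm]
    norm_cast
    rw [← Finset.prod_mul_distrib]
    simp_rw [← mul_pow, hff']
    have h1 : (1 : ℝ≥0) ≤ convexBodyLTFactor F * convexBodyLTFactor F :=
      one_le_mul (one_le_convexBodyLTFactor F) (one_le_convexBodyLTFactor F)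
    have h2 : t ≤ ∏ w : InfinitePlace F, (t ^ 2) ^ mult w := by
      obtain ⟨w₀⟩ : Nonempty (InfinitePlace F) := inferInstance
      rw [← Finset.mul_prod_erase _ _ (Finset.mem_univ w₀)]
      have h3 : (1 : ℝ≥0) ≤ ∏ x ∈ Finset.univ.erase w₀, (t ^ 2) ^ mult x :=
        Finset.one_le_prod' fun w _ => one_le_pow₀ (one_le_pow₀ ht1)
      have h4 : t ≤ (t ^ 2) ^ mult w₀ := by
        rw [← pow_mul]
        exact le_self_pow₀ ht1 (mul_ne_zero two_ne_zero mult_pos.ne')
      calc t ≤ (t ^ 2) ^ mult w₀ := h4
        _ = (t ^ 2) ^ mult w₀ * 1 := (mul_one _).symm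
        _ ≤ _ := by gcongr
    calc t = 1 * t := (one_mul t).symm
      _ ≤ _ := by gcongr
  have : (volume : Measure (mixedSpace F × mixedSpace F)).IsAddHaarMeasure :=
    Measure.prod.instIsAddHaarMeasure _ _
  have : Countable (Submodule.span ℤ (Set.range b)).toAddSubgroup := by
    change Countable (Submodule.span ℤ (Set.range b))
    infer_instance
  obtain ⟨⟨x, hx⟩, hx0, hxs⟩ := exists_ne_zero_mem_lattice_of_measure_mul_two_pow_lt_measure
    (ZSpan.isAddFundamentalDomain' b volume) (s := shear F f f' z) (fun x hx => by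
      refine ⟨convexBodyLT_neg_mem F f x.1 hx.1, ?_⟩
      have := convexBodyLT_neg_mem F f' _ hx.2
      rw [neg_add] at this
      rw [Prod.fst_neg, map_neg, Prod.snd_neg]
      exact this) (by
      intro p hp q hq a a' ha ha' haa
      refine ⟨convexBodyLT_convex F f hp.1 hq.1 ha ha' haa, ?_⟩
      have := convexBodyLT_convex F f' hp.2 hq.2 ha ha' haa
      have e : (a • p + a' • q).2 + zmul F z (a • p + a' • q).1 =
        a • (p.2 + zmul F z p.1) + a' • (q.2 + zmul F z q.1) := by
        rw [Prod.snd_add, Prod.fst_add, Prod.smul_snd, Prod.smul_fst, Prod.smul_snd, Prod.smul_fst,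
          map_add, map_smul, map_smul, smul_add, smul_add]
        abel
      rw [e]
      exact this) hvol
  -- coordinates
  have hmem : ∀ x ∈ Submodule.span ℤ (Set.range b), x.1 ∈ Submodule.span ℤ
      (Set.range (latticeBasis F)) ∧ x.2 ∈ Submodule.span ℤ (Set.range (latticeBasis F)) := by
    intro x hx
    have hle : Submodule.span ℤ (Set.range b) ≤
        (Submodule.span ℤ (Set.range (latticeBasis F))).comap
          (LinearMap.fst ℤ (mixedSpace F) (mixedSpace F)) ⊓
        (Submodule.span ℤ (Set.range (latticeBasis F))).comap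
          (LinearMap.snd ℤ (mixedSpace F) (mixedSpace F)) := by
      rw [Submodule.span_le]
      rintro _ ⟨i, rfl⟩
      rw [SetLike.mem_coe, Submodule.mem_inf, Submodule.mem_comap, Submodule.mem_comap,
        LinearMap.fst_apply, LinearMap.snd_apply]
      rcases i with i | i
      · refine ⟨?_, ?_⟩
        · simp only [b, Basis.prod_apply, Sum.elim_inl, Function.comp_apply, LinearMap.coe_inl]
          exact Submodule.subset_span ⟨i, rfl⟩
        · simp only [b, Basis.prod_apply, Sum.elim_inl, Function.comp_apply, LinearMap.coe_inl]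
          exact Submodule.zero_mem _
      · refine ⟨?_, ?_⟩
        · simp only [b, Basis.prod_apply, Sum.elim_inr, Function.comp_apply, LinearMap.coe_inr]
          exact Submodule.zero_mem _
        · simp only [b, Basis.prod_apply, Sum.elim_inr, Function.comp_apply, LinearMap.coe_inr]
          exact Submodule.subset_span ⟨i, rfl⟩
    exact hle hx
  obtain ⟨h1, h2⟩ := hmem x hx
  rw [mem_span_latticeBasis] at h1 h2
  obtain ⟨c, hc⟩ := h1
  obtain ⟨d, hd⟩ := h2
  have hc' : mixedEmbedding F (c : F) = x.1 := hc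
  have hd' : mixedEmbedding F (d : F) = x.2 := hd
  refine ⟨c, d, ?_, fun w => ?_⟩
  · by_contra hcon
    push Not at hcon
    apply hx0
    apply Subtype.ext
    apply Prod.ext
    · show x.1 = 0
      rw [← hc', hcon.1]; simp
    · show x.2 = 0
      rw [← hd', hcon.2]; simp
  · have hw : IsComplex w := IsTotallyComplex.isComplex w
    have e1 := (hxs.1).2 ⟨w, hw⟩ (Set.mem_univ _)
    have e2 := (hxs.2).2 ⟨w, hw⟩ (Set.mem_univ _)
    rw [mem_ball_zero_iff] at e1 e2
    have e3 : (x.1).2 ⟨w, hw⟩ = w.embedding (c : F) := by rw [← hc']; rfl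
    have e4 : (x.2).2 ⟨w, hw⟩ = w.embedding (d : F) := by rw [← hd']; rfl
    have e5 : (x.2 + zmul F z x.1).2 ⟨w, hw⟩ = w.embedding (d : F) + z w * w.embedding (c : F) := by
      show (x.2).2 ⟨w, hw⟩ + z w * (x.1).2 ⟨w, hw⟩ = _
      rw [e3, e4]
    change ‖(x.1).2 ⟨w, hw⟩‖ < _ at e1
    change ‖(x.2 + zmul F z x.1).2 ⟨w, hw⟩‖ < _ at e2
    rw [e3] at e1
    rw [e5] at e2
    have hyw := hy w
    have hs : ((NNReal.sqrt (y w).toNNReal : ℝ≥0) : ℝ) = Real.sqrt (y w) := by
      rw [Real.coe_sqrt, Real.coe_toNNReal _ hyw.le]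
    have hf : ((f w : ℝ≥0) : ℝ) = t / Real.sqrt (y w) := by
      simp only [f, NNReal.coe_div, hs]
    have hf2 : ((f' w : ℝ≥0) : ℝ) = t * Real.sqrt (y w) := by
      simp only [f', NNReal.coe_mul, hs]
    rw [hf] at e1
    rw [hf2] at e2
    have hsp : 0 < Real.sqrt (y w) := Real.sqrt_pos.mpr hyw
    have hss : Real.sqrt (y w) ^ 2 = y w := Real.sq_sqrt hyw.le
    have q1 : ‖w.embedding (c : F)‖ ^ 2 * y w ^ 2 ≤ t ^ 2 * y w := by
      have : ‖w.embedding (c : F)‖ ^ 2 ≤ (t / Real.sqrt (y w)) ^ 2 := by
        gcongr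
      rw [div_pow, hss] at this
      calc ‖w.embedding (c : F)‖ ^ 2 * y w ^ 2 ≤ (t ^ 2 / y w) * y w ^ 2 := by gcongr
        _ = t ^ 2 * y w := by field_simp
    have q2 : ‖w.embedding (c : F) * z w + w.embedding (d : F)‖ ^ 2 ≤ t ^ 2 * y w := by
      have h3 : ‖w.embedding (c : F) * z w + w.embedding (d : F)‖ =
        ‖w.embedding (d : F) + z w * w.embedding (c : F)‖ := by
        congr 1; ring
      rw [h3]
      have : ‖w.embedding (d : F) + z w * w.embedding (c : F)‖ ^ 2 ≤ (t * Real.sqrt (y w)) ^ 2 := by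
        gcongr
      rwa [mul_pow, hss] at this
    linarith

end Fermat.Agent.LT
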