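import Mathlib

set_option autoImplicit false

/-! # Translations, units and ideal classes for reduction theory -/

namespace Fermat.Agent.LT

open NumberField NumberField.InfinitePlace NumberField.mixedEmbedding Module
open scoped NNReal ENNReal nonZeroDivisors

variable (F : Type*) [Field F] [NumberField F]

/-- The ring of integers is cocompact in `∏_w ℂ`. -/
theorem exists_translate [IsTotallyComplex F] : ∃ R : ℝ, 0 ≤ R ∧
    ∀ z : InfinitePlace F → ℂ, ∃ b : 𝓞 F, ∀ w, ‖z w + w.embedding (b : F)‖ ≤ R := by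
  classical
  obtain ⟨R, hR⟩ := (ZSpan.fundamentalDomain_isBounded (latticeBasis F)).exists_norm_le
  refine ⟨max R 0, le_max_right _ _, fun z => ?_⟩
  let x : mixedSpace F := (0, fun w => z w.1)
  have h1 := ZSpan.fract_mem_fundamentalDomain (latticeBasis F) x
  have h2 := hR _ h1
  have h3 : ((ZSpan.floor (latticeBasis F) x : Submodule.span ℤ (Set.range (latticeBasis F))) :
      mixedSpace F) ∈ Submodule.span ℤ (Set.range (latticeBasis F)) := Subtype.mem _
  rw [mem_span_latticeBasis] at h3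
  obtain ⟨b, hb⟩ := h3
  refine ⟨-b, fun w => ?_⟩
  have hw : IsComplex w := IsTotallyComplex.isComplex w
  have h4 : (ZSpan.fract (latticeBasis F) x).2 ⟨w, hw⟩ = z w + w.embedding ((-b : 𝓞 F) : F) := by
    rw [ZSpan.fract_apply, ← hb, Prod.snd_sub]
    show z w - w.embedding (b : F) = _
    rw [show ((-b : 𝓞 F) : F) = -(b : F) from map_neg (algebraMap (𝓞 F) F) b, map_neg]
    ring
  rw [← h4]
  calc ‖(ZSpan.fract (latticeBasis F) x).2 ⟨w, hw⟩‖ ≤ ‖(ZSpan.fract (latticeBasis F) x).2‖ :=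
        norm_le_pi_norm _ _
    _ ≤ ‖ZSpan.fract (latticeBasis F) x‖ := norm_snd_le _
    _ ≤ R := h2
    _ ≤ _ := le_max_left _ _

/-- Dirichlet's unit theorem: balancing -/
theorem exists_unit_balance [IsTotallyComplex F] : ∃ R : ℝ, 1 ≤ R ∧
    ∀ y : InfinitePlace F → ℝ, (∀ w, 0 < y w) → ∃ u : (𝓞 F)ˣ, ∀ w w' : InfinitePlace F,
      ‖w.embedding ((u : 𝓞 F) : F)‖ ^ 2 * y w ≤
        R * (‖w'.embedding ((u : 𝓞 F) : F)‖ ^ 2 * y w') := by
  classical
  obtain ⟨R₀, hR₀⟩ := (fundamentalCone.isBounded_normLeOne F).exists_norm_le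
  set B : ℝ := max R₀ 1 with hB
  have hB1 : 1 ≤ B := le_max_right _ _
  set r := Fintype.card (InfinitePlace F) with hr
  refine ⟨(B ^ 2) ^ r, one_le_pow₀ (one_le_pow₀ hB1), fun y hy => ?_⟩
  -- normalise the product
  set P : ℝ := ∏ w, y w with hP
  have hPpos : 0 < P := Finset.prod_pos fun w _ => hy w
  have hrpos : r ≠ 0 := Fintype.card_ne_zero
  -- `c ^ r = P`
  set c : ℝ := P ^ ((r : ℝ)⁻¹) with hc
  have hcpos : 0 < c := Real.rpow_pos_of_pos hPpos _
  have hcr : c ^ r = P := Real.rpow_inv_natCast_pow hPpos.le hrpos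
  let x : mixedSpace F := (0, fun w => ((Real.sqrt (y w.1 / c) : ℝ) : ℂ))
  have hyc : ∀ w, 0 < y w / c := fun w => div_pos (hy w) hcpos
  have hnp : ∀ w : InfinitePlace F, normAtPlace w x = Real.sqrt (y w / c) := by
    intro w
    have hw : IsComplex w := IsTotallyComplex.isComplex w
    rw [normAtPlace_apply_of_isComplex hw]
    show ‖((Real.sqrt (y w / c) : ℝ) : ℂ)‖ = _
    rw [Complex.norm_real, Real.norm_of_nonneg (Real.sqrt_nonneg _)]
  have hmult : ∀ w : InfinitePlace F, mult w = 2 := fun w => by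
    have hw : IsComplex w := IsTotallyComplex.isComplex w
    rw [mult_isComplex ⟨w, hw⟩]
  have hnorm : mixedEmbedding.norm x = 1 := by
    rw [mixedEmbedding.norm_apply]
    have : ∀ w, normAtPlace w x ^ mult w = y w / c := by
      intro w
      rw [hnp, hmult, Real.sq_sqrt (hyc w).le]
    simp_rw [this]
    rw [Finset.prod_div_distrib, Finset.prod_const, Finset.card_univ, ← hr, hcr]
    exact div_self hPpos.ne'
  obtain ⟨u, hu⟩ := fundamentalCone.exists_unit_smul_mem (K := F) (x := x) (by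
    rw [hnorm]; exact one_ne_zero)
  have hnorm' : mixedEmbedding.norm (u • x) = 1 := by
    rw [norm_unit_smul, hnorm]
  have hmem : u • x ∈ fundamentalCone.normLeOne F := ⟨hu, hnorm'.le⟩
  have hbd := hR₀ _ hmem
  set a : InfinitePlace F → ℝ := fun w => ‖w.embedding ((u : 𝓞 F) : F)‖ ^ 2 * (y w / c) with ha
  have hau : ∀ w, normAtPlace w (u • x) = ‖w.embedding ((u : 𝓞 F) : F)‖ * Real.sqrt (y w / c) := by
    intro w
    rw [unitSMul_smul, map_mul, hnp, normAtPlace_apply, norm_embedding_eq]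
  have ha2 : ∀ w, a w = normAtPlace w (u • x) ^ 2 := by
    intro w
    rw [hau, mul_pow, Real.sq_sqrt (hyc w).le]
  have ha0 : ∀ w, 0 < a w := by
    intro w
    refine mul_pos (pow_pos (norm_pos_iff.mpr ?_) 2) (hyc w)
    rw [map_ne_zero]
    exact RingOfIntegers.coe_ne_zero_iff.mpr (Units.ne_zero u)
  have haB : ∀ w, a w ≤ B ^ 2 := by
    intro w
    rw [ha2]
    have h9 : normAtPlace w (u • x) ≤ ‖u • x‖ := by
      rw [norm_eq_sup'_normAtPlace]
      exact Finset.le_sup' (fun w => normAtPlace w (u • x)) (Finset.mem_univ w)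
    have : normAtPlace w (u • x) ≤ B := h9.trans (hbd.trans (le_max_left _ _))
    have h0 : 0 ≤ normAtPlace w (u • x) := normAtPlace_nonneg _ _
    gcongr
  have haprod : ∏ w, a w = 1 := by
    rw [← hnorm', mixedEmbedding.norm_apply]
    refine Finset.prod_congr rfl fun w _ => ?_
    rw [ha2, hmult]
  refine ⟨u, fun w w' => ?_⟩
  have key : a w ≤ (B ^ 2) ^ r * a w' := by
    have h1 : 1 ≤ a w' * (B ^ 2) ^ (r - 1) := by
      rw [← haprod, ← Finset.mul_prod_erase _ _ (Finset.mem_univ w')]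
      refine mul_le_mul_of_nonneg_left ?_ (ha0 w').le
      calc ∏ x ∈ Finset.univ.erase w', a x ≤ ∏ _x ∈ Finset.univ.erase w', B ^ 2 :=
            Finset.prod_le_prod (fun x _ => (ha0 x).le) fun x _ => haB x
        _ = (B ^ 2) ^ (r - 1) := by
          rw [Finset.prod_const, Finset.card_erase_of_mem (Finset.mem_univ _), Finset.card_univ]
    calc a w ≤ B ^ 2 * 1 := by rw [mul_one]; exact haB w
      _ ≤ B ^ 2 * (a w' * (B ^ 2) ^ (r - 1)) := by gcongr
      _ = (B ^ 2) ^ (r - 1 + 1) * a w' := by ring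
      _ = (B ^ 2) ^ r * a w' := by rw [Nat.sub_add_cancel (Nat.one_le_iff_ne_zero.mpr hrpos)]
  have e : ∀ w, ‖w.embedding ((u : 𝓞 F) : F)‖ ^ 2 * y w = a w * c := by
    intro w
    simp only [a]
    field_simp
  rw [e, e, ← mul_assoc]
  exact mul_le_mul_of_nonneg_right key hcpos.le

/-- representatives of ideal classes -/
theorem exists_class_reps : ∃ S : Finset (Ideal (𝓞 F)), (∀ I ∈ S, I ≠ ⊥) ∧
    ∀ J : Ideal (𝓞 F), J ≠ ⊥ → ∃ I ∈ S, ∃ x y : 𝓞 F, x ≠ 0 ∧ y ≠ 0 ∧
      Ideal.span {x} * J = Ideal.span {y} * I := by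
  classical
  have hs : Function.Surjective (ClassGroup.mk0 : (Ideal (𝓞 F))⁰ → ClassGroup (𝓞 F)) :=
    ClassGroup.mk0_surjective
  refine ⟨Finset.univ.image fun c : ClassGroup (𝓞 F) => ((Function.surjInv hs c : (Ideal (𝓞 F))⁰) :
    Ideal (𝓞 F)), ?_, ?_⟩
  · intro I hI
    obtain ⟨c, -, rfl⟩ := Finset.mem_image.mp hI
    exact mem_nonZeroDivisors_iff_ne_zero.mp (Function.surjInv hs c).2
  · intro J hJ
    let J' : (Ideal (𝓞 F))⁰ := ⟨J, mem_nonZeroDivisors_iff_ne_zero.mpr hJ⟩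
    refine ⟨_, Finset.mem_image.mpr ⟨ClassGroup.mk0 J', Finset.mem_univ _, rfl⟩, ?_⟩
    have h := Function.surjInv_eq hs (ClassGroup.mk0 J')
    obtain ⟨x, y, hx, hy, e⟩ := ClassGroup.mk0_eq_mk0_iff.mp h.symm
    exact ⟨x, y, hx, hy, e⟩

end Fermat.Agent.LT
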