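import Fermat.Agent.LT.Red.Pairs
import Fermat.Agent.LT.Red.Short
import Fermat.Agent.LT.Red.Units

set_option autoImplicit false

/-! # Siegel's reduction theorem for `SL₂` over the integers of a totally complex field -/

namespace Fermat.Agent.LT

open NumberField NumberField.InfinitePlace
open Matrix (SpecialLinearGroup GeneralLinearGroup)

variable {F : Type*} [Field F]

/-- the embedding of `SL₂(𝓞)` in `GL₂(F)` -/
noncomputable def slO (F : Type*) [Field F] : SpecialLinearGroup (Fin 2) (𝓞 F) →* GL (Fin 2) F :=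
  SpecialLinearGroup.toGL.comp (SpecialLinearGroup.map (algebraMap (𝓞 F) F))

/-- the embedding of `SL₂(F)` in `GL₂(F)` -/
def slF (F : Type*) [Field F] : SpecialLinearGroup (Fin 2) F →* GL (Fin 2) F :=
  SpecialLinearGroup.toGL

/-- Siegel sets -/
def Siegel (F : Type*) [Field F] (R : ℝ) : Set (HF F) :=
  {x | ∀ w, ‖(x w).z‖ ≤ R ∧ R⁻¹ ≤ (x w).y ∧ ∀ w', (x w).y ≤ R * (x w').y}

theorem slF_smul_y (g : SpecialLinearGroup (Fin 2) F) (x : HF F) (w : InfinitePlace F) :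
    ((slF F g • x) w).y = 1 / (x w).q (w.embedding (g 1 0)) (w.embedding (g 1 1)) := by
  rw [smul_HF_apply, H3.y_smul, det_embGL]
  have : ((slF F g : GL (Fin 2) F) : Matrix (Fin 2) (Fin 2) F).det = 1 := g.2
  rw [this, map_one, norm_one]
  rfl

variable [NumberField F]

theorem prod_norm_sq [IsTotallyComplex F] (x : 𝓞 F) :
    ∏ w : InfinitePlace F, ‖w.embedding (x : F)‖ ^ 2 = (Ideal.absNorm (Ideal.span {x}) : ℝ) := by
  have h := InfinitePlace.prod_eq_abs_norm (x : F)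
  have h1 : ∀ w : InfinitePlace F, w (x : F) ^ w.mult = ‖w.embedding (x : F)‖ ^ 2 := by
    intro w
    have hw : IsComplex w := IsTotallyComplex.isComplex w
    rw [norm_embedding_eq, mult_isComplex ⟨w, hw⟩]
  simp_rw [h1] at h
  rw [h, Ideal.absNorm_span_singleton, ← Algebra.coe_norm_int]
  rw [Nat.cast_natAbs]
  push_cast
  norm_cast

/-- **Siegel's theorem.** -/
theorem siegel (F : Type*) [Field F] [NumberField F] [IsTotallyComplex F] :
    ∃ (S : Finset (SpecialLinearGroup (Fin 2) F)) (R : ℝ), 1 ≤ R ∧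
      ∀ x : HF F, ∃ γ : SpecialLinearGroup (Fin 2) (𝓞 F), ∃ s ∈ S, ∃ x' ∈ Siegel F R,
        x = slO F γ • slF F s • x' := by
  classical
  obtain ⟨C, hC1, hC⟩ := exists_short F
  obtain ⟨R₀, hR₀, htr⟩ := exists_translate F
  obtain ⟨R₁, hR₁, hbal⟩ := exists_unit_balance F
  obtain ⟨T, hT0, hT⟩ := exists_pair_reps F
  -- reference matrices
  have hG : ∀ p : 𝓞 F × 𝓞 F, ∃ g : SpecialLinearGroup (Fin 2) F, (p.1 ≠ 0 ∨ p.2 ≠ 0) →
      TypeJ (Ideal.span {p.1, p.2}) (g : Matrix (Fin 2) (Fin 2) F) := by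
    intro p
    by_cases hp : p.1 ≠ 0 ∨ p.2 ≠ 0
    · obtain ⟨a, b, hab, ha, hb⟩ := exists_bezout hp
      refine ⟨⟨!![a, b; (p.1 : F), (p.2 : F)], by rw [Matrix.det_fin_two_of]; exact hab⟩,
        fun _ => ⟨?_, ?_⟩⟩
      · intro j t ht
        fin_cases j
        · exact ha t ht
        · exact hb t ht
      · intro j
        fin_cases j
        · exact ⟨p.1, Ideal.subset_span (by simp), rfl⟩
        · exact ⟨p.2, Ideal.subset_span (by simp), rfl⟩
    · exact ⟨1, fun h => absurd h hp⟩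
  choose G hG using hG
  set r := Fintype.card (InfinitePlace F) with hr
  have hr0 : r ≠ 0 := Fintype.card_ne_zero
  set N₀ : ℝ := ∑ p ∈ T, (Ideal.absNorm (Ideal.span {p.1, p.2}) : ℝ) + 1 with hN₀
  have hN1 : 1 ≤ N₀ := by
    rw [hN₀]
    have : 0 ≤ ∑ p ∈ T, (Ideal.absNorm (Ideal.span {p.1, p.2}) : ℝ) :=
      Finset.sum_nonneg fun _ _ => Nat.cast_nonneg _
    linarith
  set κ : ℝ := (C ^ r * N₀)⁻¹ with hκ
  have hCN : 1 ≤ C ^ r * N₀ := one_le_mul_of_one_le_of_one_le (one_le_pow₀ hC1) hN1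
  have hκ0 : 0 < κ := inv_pos.mpr (by linarith)
  have hκ1 : κ ≤ 1 := inv_le_one_of_one_le₀ hCN
  set R : ℝ := max R₀ (R₁ / κ) with hR
  have hR₁κ : R₁ ≤ R₁ / κ := by
    rw [le_div_iff₀ hκ0]
    nlinarith
  have hRR₁ : R₁ ≤ R := hR₁κ.trans (le_max_right _ _)
  refine ⟨T.image fun p => (G p)⁻¹, R, hR₁.trans hRR₁, fun x => ?_⟩
  obtain ⟨c, d, hcd, hq⟩ := hC (fun w => (x w).z) (fun w => (x w).y) (fun w => (x w).pos)
  obtain ⟨p, hpT, x₀, y₀, hx₀, hy₀, hJ⟩ := hT c d hcd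
  set J := Ideal.span {p.1, p.2} with hJdef
  -- the new pair
  obtain ⟨c', hc', hcc⟩ : ∃ c' ∈ J, y₀ * c' = x₀ * c := by
    rw [← Ideal.mem_span_singleton_mul, ← hJ, Ideal.mem_span_singleton_mul]
    exact ⟨c, Ideal.subset_span (by simp), rfl⟩
  obtain ⟨d', hd', hdd⟩ : ∃ d' ∈ J, y₀ * d' = x₀ * d := by
    rw [← Ideal.mem_span_singleton_mul, ← hJ, Ideal.mem_span_singleton_mul]
    exact ⟨d, Ideal.subset_span (by simp), rfl⟩
  have hcd' : c' ≠ 0 ∨ d' ≠ 0 := by
    rcases hcd with h | h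
    · left
      rintro rfl
      rw [mul_zero] at hcc
      exact mul_ne_zero hx₀ h hcc.symm
    · right
      rintro rfl
      rw [mul_zero] at hdd
      exact mul_ne_zero hx₀ h hdd.symm
  have hJle : J ≤ Ideal.span {c', d'} := by
    intro t ht
    have h1 : y₀ * t ∈ Ideal.span {x₀} * Ideal.span {c, d} := by
      rw [hJ, Ideal.mem_span_singleton_mul]
      exact ⟨t, ht, rfl⟩
    rw [Ideal.mem_span_singleton_mul] at h1
    obtain ⟨s, hs, hst⟩ := h1
    rw [Ideal.mem_span_pair] at hs ⊢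
    obtain ⟨α, β, rfl⟩ := hs
    refine ⟨α, β, mul_left_cancel₀ hy₀ ?_⟩
    rw [← hst]
    linear_combination α * hcc + β * hdd
  obtain ⟨a, b, hab, ha, hb⟩ := exists_bezout hcd'
  let g : SpecialLinearGroup (Fin 2) F :=
    ⟨!![a, b; (c' : F), (d' : F)], by rw [Matrix.det_fin_two_of]; exact hab⟩
  have hg : TypeJ J (g : Matrix (Fin 2) (Fin 2) F) := by
    refine ⟨?_, ?_⟩
    · intro j t ht
      fin_cases j
      · exact ha t (hJle ht)
      · exact hb t (hJle ht)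
    · intro j
      fin_cases j
      · exact ⟨c', hc', rfl⟩
      · exact ⟨d', hd', rfl⟩
  -- product of the heights
  have hqpos : ∀ w : InfinitePlace F, 0 < (x w).q (w.embedding (c' : F)) (w.embedding (d' : F)) := by
    intro w
    apply H3.q_pos
    rcases hcd' with h | h
    · left
      rw [ne_eq, map_eq_zero]
      exact RingOfIntegers.coe_ne_zero_iff.mpr h
    · right
      rw [ne_eq, map_eq_zero]
      exact RingOfIntegers.coe_ne_zero_iff.mpr h
  have hqle : ∀ w : InfinitePlace F, ‖w.embedding (y₀ : F)‖ ^ 2 *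
      (x w).q (w.embedding (c' : F)) (w.embedding (d' : F)) ≤ ‖w.embedding (x₀ : F)‖ ^ 2 * C := by
    intro w
    rw [← H3.q_smul, ← map_mul w.embedding (y₀ : F) (c' : F),
      ← map_mul w.embedding (y₀ : F) (d' : F)]
    have e1 : (y₀ : F) * (c' : F) = (x₀ : F) * (c : F) := by
      exact_mod_cast congrArg (fun z : 𝓞 F => (z : F)) hcc
    have e2 : (y₀ : F) * (d' : F) = (x₀ : F) * (d : F) := by
      exact_mod_cast congrArg (fun z : 𝓞 F => (z : F)) hdd
    rw [e1, e2, map_mul, map_mul, H3.q_smul]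
    refine mul_le_mul_of_nonneg_left ?_ (by positivity)
    rw [H3.q, H3.den, div_le_iff₀ (x w).pos]
    exact hq w
  have hprod : ∏ w : InfinitePlace F, (x w).q (w.embedding (c' : F)) (w.embedding (d' : F)) ≤
      C ^ r * N₀ := by
    have h1 : ∏ w : InfinitePlace F, (‖w.embedding (y₀ : F)‖ ^ 2 *
        (x w).q (w.embedding (c' : F)) (w.embedding (d' : F))) ≤
        ∏ w : InfinitePlace F, (‖w.embedding (x₀ : F)‖ ^ 2 * C) :=
      Finset.prod_le_prod (fun w _ => mul_nonneg (by positivity) (hqpos w).le) fun w _ => hqle w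
    rw [Finset.prod_mul_distrib, Finset.prod_mul_distrib, prod_norm_sq, prod_norm_sq,
      Finset.prod_const, Finset.card_univ, ← hr] at h1
    have h2 : (Ideal.absNorm (Ideal.span {x₀}) : ℝ) * Ideal.absNorm (Ideal.span {c, d}) =
        Ideal.absNorm (Ideal.span {y₀}) * Ideal.absNorm J := by
      exact_mod_cast (by rw [← map_mul, ← map_mul, hJ] :
        Ideal.absNorm (Ideal.span {x₀}) * Ideal.absNorm (Ideal.span {c, d}) =
        Ideal.absNorm (Ideal.span {y₀}) * Ideal.absNorm J)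
    have h3 : (1 : ℝ) ≤ Ideal.absNorm (Ideal.span {c, d}) := by
      exact_mod_cast Nat.one_le_iff_ne_zero.mpr
        (Ideal.absNorm_ne_zero_iff_mem_nonZeroDivisors.mpr
          (mem_nonZeroDivisors_iff_ne_zero.mpr (span_pair_ne_bot F hcd)))
    have h4 : (0 : ℝ) < Ideal.absNorm (Ideal.span {y₀}) := by
      exact_mod_cast Nat.pos_of_ne_zero
        (Ideal.absNorm_ne_zero_iff_mem_nonZeroDivisors.mpr
          (mem_nonZeroDivisors_iff_ne_zero.mpr (by
            rw [ne_eq, Ideal.zero_eq_bot, Ideal.span_singleton_eq_bot]; exact hy₀)))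
    have h5 : (Ideal.absNorm J : ℝ) ≤ N₀ := by
      rw [hN₀]
      have : (Ideal.absNorm J : ℝ) ≤ ∑ p ∈ T, (Ideal.absNorm (Ideal.span {p.1, p.2}) : ℝ) :=
        Finset.single_le_sum (f := fun p : 𝓞 F × 𝓞 F =>
          (Ideal.absNorm (Ideal.span {p.1, p.2}) : ℝ)) (fun _ _ => Nat.cast_nonneg _) hpT
      linarith
    have h6 : (0 : ℝ) ≤ Ideal.absNorm (Ideal.span {x₀}) := Nat.cast_nonneg _
    have h7 : (Ideal.absNorm (Ideal.span {x₀}) : ℝ) ≤ Ideal.absNorm (Ideal.span {y₀}) * N₀ := by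
      calc (Ideal.absNorm (Ideal.span {x₀}) : ℝ) = Ideal.absNorm (Ideal.span {x₀}) * 1 := by ring
        _ ≤ Ideal.absNorm (Ideal.span {x₀}) * Ideal.absNorm (Ideal.span {c, d}) := by gcongr
        _ = Ideal.absNorm (Ideal.span {y₀}) * Ideal.absNorm J := h2
        _ ≤ _ := by gcongr
    have hCr : 0 ≤ C ^ r := by positivity
    refine le_of_mul_le_mul_left ?_ h4
    calc _ ≤ (Ideal.absNorm (Ideal.span {x₀}) : ℝ) * C ^ r := h1
      _ ≤ Ideal.absNorm (Ideal.span {y₀}) * N₀ * C ^ r := by gcongr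
      _ = _ := by ring
  -- first translate
  set x₁ : HF F := slF F g • x with hx₁
  have hy₁ : ∀ w, (x₁ w).y = 1 / (x w).q (w.embedding (c' : F)) (w.embedding (d' : F)) := by
    intro w
    rw [hx₁, slF_smul_y]
    rfl
  obtain ⟨u, hu⟩ := hbal (fun w => (x₁ w).y) (fun w => (x₁ w).pos)
  have hu0 : ((u : 𝓞 F) : F) ≠ 0 := RingOfIntegers.coe_ne_zero_iff.mpr (Units.ne_zero u)
  set x₂ : HF F := dMat ((u : 𝓞 F) : F) hu0 • x₁ with hx₂
  have hy₂ : ∀ w, (x₂ w).y = ‖w.embedding ((u : 𝓞 F) : F)‖ ^ 2 * (x₁ w).y := fun w =>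
    dMat_smul_y _ hu0 x₁ w
  have hbal₂ : ∀ w w', (x₂ w).y ≤ R₁ * (x₂ w').y := by
    intro w w'
    rw [hy₂, hy₂]
    exact hu w w'
  have hprod₂ : κ ≤ ∏ w, (x₂ w).y := by
    simp_rw [hy₂, hy₁]
    rw [Finset.prod_mul_distrib, prod_norm_sq]
    have : Ideal.span {(u : 𝓞 F)} = ⊤ := Ideal.span_singleton_eq_top.mpr u.isUnit
    rw [this, Ideal.absNorm_top, Nat.cast_one, one_mul]
    simp_rw [one_div]
    rw [Finset.prod_inv_distrib, hκ]
    exact inv_anti₀ (Finset.prod_pos fun w _ => hqpos w) hprod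
  have hlow : ∀ w, κ / R₁ ≤ (x₂ w).y := by
    intro w
    by_contra hcon
    push Not at hcon
    have hR₁0 : 0 < R₁ := by linarith
    have h1 : R₁ * (x₂ w).y < κ := by
      rw [lt_div_iff₀ hR₁0] at hcon
      linarith
    have h0 : 0 < R₁ * (x₂ w).y := mul_pos hR₁0 (x₂ w).pos
    have h2 : ∏ w', (x₂ w').y ≤ ∏ _w' : InfinitePlace F, R₁ * (x₂ w).y :=
      Finset.prod_le_prod (fun w' _ => (x₂ w').pos.le) fun w' _ => hbal₂ w' w
    rw [Finset.prod_const, Finset.card_univ, ← hr] at h2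
    have h3 : (R₁ * (x₂ w).y) ^ r ≤ R₁ * (x₂ w).y :=
      pow_le_of_le_one h0.le (h1.le.trans hκ1) hr0
    linarith
  obtain ⟨t, ht⟩ := htr (fun w => (x₂ w).z)
  set x₃ : HF F := nMat (t : F) • x₂ with hx₃
  let g₃ : SpecialLinearGroup (Fin 2) F := nSL (t : F) * (dSL ((u : 𝓞 F) : F) hu0 * g)
  have hg₃ : TypeJ J (g₃ : Matrix (Fin 2) (Fin 2) F) := (hg.dMul u).nMul t
  obtain ⟨γ, hγ⟩ := TypeJ.exists_SL hg₃ (hG p (hT0 p hpT))
  refine ⟨γ⁻¹, (G p)⁻¹, Finset.mem_image.mpr ⟨p, hpT, rfl⟩, x₃, ?_, ?_⟩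
  · intro w
    refine ⟨?_, ?_, fun w' => ?_⟩
    · rw [hx₃, nMat_smul_z]
      exact (ht w).trans (le_max_left _ _)
    · rw [hx₃, nMat_smul_y]
      refine le_trans ?_ (hlow w)
      rw [show κ / R₁ = (R₁ / κ)⁻¹ from (inv_div _ _).symm]
      exact inv_anti₀ (by positivity) (le_max_right _ _)
    · rw [hx₃, nMat_smul_y, nMat_smul_y]
      refine (hbal₂ w w').trans ?_
      have := (x₂ w').pos
      gcongr
  · have e1 : x₃ = slF F g₃ • x := by
      have e0 : slF F g₃ = nMat (t : F) * (dMat ((u : 𝓞 F) : F) hu0 * slF F g) := by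
        simp only [g₃, map_mul]
        rfl
      rw [e0, mul_smul, mul_smul]
    have e2 : slF F g₃ = slF F (G p) * slO F γ := by
      rw [hγ, map_mul]
      rfl
    rw [e1, e2, map_inv, map_inv, mul_smul, inv_smul_smul, inv_smul_smul]

end Fermat.Agent.LT
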