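import Fermat.Agent.LT.HF

set_option autoImplicit false

/-! # Pairs of integers, ideals, and integral matrices -/

namespace Fermat.Agent.LT

open NumberField NumberField.InfinitePlace Matrix
open scoped nonZeroDivisors

variable (F : Type*) [Field F] [NumberField F]

omit [NumberField F] in
theorem span_pair_ne_bot {c d : 𝓞 F} (h : c ≠ 0 ∨ d ≠ 0) : Ideal.span {c, d} ≠ ⊥ := by
  intro h0
  rw [Ideal.span_eq_bot] at h0
  rcases h with h | h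
  · exact h (h0 c (by simp))
  · exact h (h0 d (by simp))

/-- finitely many pairs represent all pairs up to scaling -/
theorem exists_pair_reps : ∃ T : Finset (𝓞 F × 𝓞 F), (∀ p ∈ T, p.1 ≠ 0 ∨ p.2 ≠ 0) ∧
    ∀ c d : 𝓞 F, (c ≠ 0 ∨ d ≠ 0) → ∃ p ∈ T, ∃ x y : 𝓞 F, x ≠ 0 ∧ y ≠ 0 ∧
      Ideal.span {x} * Ideal.span {c, d} = Ideal.span {y} * Ideal.span {p.1, p.2} := by
  classical
  let P := {p : 𝓞 F × 𝓞 F // p.1 ≠ 0 ∨ p.2 ≠ 0}
  let f : P → ClassGroup (𝓞 F) := fun p => ClassGroup.mk0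
    ⟨Ideal.span {p.1.1, p.1.2}, mem_nonZeroDivisors_iff_ne_zero.mpr (span_pair_ne_bot F p.2)⟩
  refine ⟨Finset.univ.image fun κ : ClassGroup (𝓞 F) =>
    if h : ∃ p : P, f p = κ then h.choose.1 else (1, 0), ?_, ?_⟩
  · intro p hp
    obtain ⟨κ, -, rfl⟩ := Finset.mem_image.mp hp
    split_ifs with h
    · exact h.choose.2
    · exact Or.inl one_ne_zero
  · intro c d hcd
    refine ⟨_, Finset.mem_image.mpr ⟨f ⟨(c, d), hcd⟩, Finset.mem_univ _, rfl⟩, ?_⟩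
    have h : ∃ p : P, f p = f ⟨(c, d), hcd⟩ := ⟨_, rfl⟩
    rw [dif_pos h]
    obtain ⟨x, y, hx, hy, e⟩ := ClassGroup.mk0_eq_mk0_iff.mp h.choose_spec.symm
    exact ⟨x, y, hx, hy, e⟩

variable {F}

/-- `SL₂`-completion of a pair -/
theorem exists_bezout {c d : 𝓞 F} (h : c ≠ 0 ∨ d ≠ 0) : ∃ a b : F, a * d - b * c = 1 ∧
    (∀ t ∈ Ideal.span {c, d}, ∃ r : 𝓞 F, a * t = r) ∧
    (∀ t ∈ Ideal.span {c, d}, ∃ r : 𝓞 F, b * t = r) := by
  set I : FractionalIdeal (𝓞 F)⁰ F := ((Ideal.span {c, d} : Ideal (𝓞 F)) : FractionalIdeal (𝓞 F)⁰ F)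
    with hI
  have hI0 : I ≠ 0 := by
    rw [hI, ne_eq, FractionalIdeal.coeIdeal_eq_zero]
    exact span_pair_ne_bot F h
  have hspan : I = FractionalIdeal.spanSingleton (𝓞 F)⁰ (d : F) +
      FractionalIdeal.spanSingleton (𝓞 F)⁰ (c : F) := by
    rw [hI, Ideal.span_insert, FractionalIdeal.coeIdeal_sup,
      FractionalIdeal.coeIdeal_span_singleton, FractionalIdeal.coeIdeal_span_singleton, add_comm]
  have h1 : (1 : F) ∈ I * I⁻¹ := by
    rw [mul_inv_cancel₀ hI0]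
    exact FractionalIdeal.one_mem_one _
  rw [hspan] at h1
  rw [← hspan, hspan, add_mul] at h1
  rw [← hspan] at h1
  rw [FractionalIdeal.mem_add] at h1
  obtain ⟨s, hs, t, ht, hst⟩ := h1
  rw [FractionalIdeal.mem_singleton_mul] at hs ht
  obtain ⟨a, ha, rfl⟩ := hs
  obtain ⟨b, hb, rfl⟩ := ht
  have key : ∀ a ∈ I⁻¹, ∀ t ∈ Ideal.span {c, d}, ∃ r : 𝓞 F, a * t = r := by
    intro a ha t ht
    rw [FractionalIdeal.mem_inv_iff hI0] at ha
    have h2 := ha (t : F) (FractionalIdeal.mem_coeIdeal_of_mem _ ht)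
    rw [FractionalIdeal.mem_one_iff] at h2
    obtain ⟨r, hr⟩ := h2
    exact ⟨r, hr.symm⟩
  refine ⟨a, -b, ?_, key a ha, key (-b) ?_⟩
  · rw [← hst]; ring
  · rw [← FractionalIdeal.mem_coe] at hb ⊢
    exact neg_mem hb

/-- matrices of type `J` -/
structure TypeJ (J : Ideal (𝓞 F)) (g : Matrix (Fin 2) (Fin 2) F) : Prop where
  top : ∀ j, ∀ t ∈ J, ∃ r : 𝓞 F, g 0 j * t = r
  bot : ∀ j, ∃ t ∈ J, g 1 j = ((t : 𝓞 F) : F)

namespace TypeJ

variable {J : Ideal (𝓞 F)}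

omit [NumberField F] in
theorem nMul {g : Matrix (Fin 2) (Fin 2) F} (hg : TypeJ J g) (b : 𝓞 F) :
    TypeJ J (!![1, (b : F); 0, 1] * g) where
  top j t ht := by
    obtain ⟨r, hr⟩ := hg.top j t ht
    obtain ⟨s, hs, hs'⟩ := hg.bot j
    refine ⟨r + b * s * t, ?_⟩
    simp only [Matrix.mul_apply, Fin.sum_univ_two, Matrix.of_apply, Matrix.cons_val', Matrix.cons_val_zero,
      Matrix.cons_val_one, Matrix.cons_val_fin_one, one_mul, hs', add_mul, hr]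
    push_cast
    rfl
  bot j := by
    obtain ⟨s, hs, hs'⟩ := hg.bot j
    refine ⟨s, hs, ?_⟩
    simp only [Matrix.mul_apply, Fin.sum_univ_two, Matrix.of_apply, Matrix.cons_val', Matrix.cons_val_zero,
      Matrix.cons_val_one, Matrix.cons_val_fin_one, one_mul, hs', zero_mul, zero_add]

omit [NumberField F] in
theorem dMul {g : Matrix (Fin 2) (Fin 2) F} (hg : TypeJ J g) (u : (𝓞 F)ˣ) :
    TypeJ J (!![((u : 𝓞 F) : F), 0; 0, ((u : 𝓞 F) : F)⁻¹] * g) where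
  top j t ht := by
    obtain ⟨r, hr⟩ := hg.top j t ht
    refine ⟨u * r, ?_⟩
    simp only [Matrix.mul_apply, Fin.sum_univ_two, Matrix.of_apply, Matrix.cons_val', Matrix.cons_val_zero,
      Matrix.cons_val_one, Matrix.cons_val_fin_one, zero_mul, add_zero, mul_assoc, hr]
    push_cast
    rfl
  bot j := by
    obtain ⟨s, hs, hs'⟩ := hg.bot j
    have hu : ((u : 𝓞 F) : F)⁻¹ = (((u⁻¹ : (𝓞 F)ˣ) : 𝓞 F) : F) := by
      symm
      refine eq_inv_of_mul_eq_one_left ?_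
      have h1 : (((u⁻¹ : (𝓞 F)ˣ) : 𝓞 F) * ((u : (𝓞 F)ˣ) : 𝓞 F)) = 1 := Units.inv_mul u
      have h2 := congrArg (algebraMap (𝓞 F) F) h1
      rwa [map_mul, map_one] at h2
    refine ⟨(u⁻¹ : (𝓞 F)ˣ) * s, J.mul_mem_left _ hs, ?_⟩
    simp only [Matrix.mul_apply, Fin.sum_univ_two, Matrix.of_apply, Matrix.cons_val', Matrix.cons_val_zero,
      Matrix.cons_val_one, Matrix.cons_val_fin_one, hs', zero_mul, zero_add, hu]
    push_cast
    rfl

omit [NumberField F] in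
/-- two matrices of type `J` of determinant one differ by an element of `SL₂(𝓞)` -/
theorem exists_SL {g g₀ : SpecialLinearGroup (Fin 2) F}
    (hg : TypeJ J (g : Matrix (Fin 2) (Fin 2) F)) (hg₀ : TypeJ J (g₀ : Matrix (Fin 2) (Fin 2) F)) :
    ∃ γ : SpecialLinearGroup (Fin 2) (𝓞 F),
      g = g₀ * SpecialLinearGroup.map (algebraMap (𝓞 F) F) γ := by
  have hprod : ∀ (h h' : Matrix (Fin 2) (Fin 2) F), TypeJ J h → TypeJ J h' → ∀ i j,
      ∃ r : 𝓞 F, h 0 i * h' 1 j = r := by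
    intro h h' hh hh' i j
    obtain ⟨t, ht, ht'⟩ := hh'.bot j
    rw [ht']
    exact hh.top i t ht
  obtain ⟨r1, h1⟩ := hprod _ _ hg hg₀ 0 1
  obtain ⟨r2, h2⟩ := hprod _ _ hg₀ hg 1 0
  obtain ⟨r3, h3⟩ := hprod _ _ hg hg₀ 1 1
  obtain ⟨r4, h4⟩ := hprod _ _ hg₀ hg 1 1
  obtain ⟨r5, h5⟩ := hprod _ _ hg hg₀ 0 0
  obtain ⟨r6, h6⟩ := hprod _ _ hg₀ hg 0 0
  obtain ⟨r7, h7⟩ := hprod _ _ hg hg₀ 1 0
  obtain ⟨r8, h8⟩ := hprod _ _ hg₀ hg 0 1
  have hm : ((g₀⁻¹ * g : SpecialLinearGroup (Fin 2) F) : Matrix (Fin 2) (Fin 2) F) =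
      (!![r1 - r2, r3 - r4; r6 - r5, r8 - r7] : Matrix (Fin 2) (Fin 2) (𝓞 F)).map
        (algebraMap (𝓞 F) F) := by
    rw [Matrix.SpecialLinearGroup.coe_mul, Matrix.SpecialLinearGroup.coe_inv,
      Matrix.adjugate_fin_two]
    ext i j
    fin_cases i <;> fin_cases j <;>
      simp [Matrix.mul_apply, Fin.sum_univ_two, ← h1, ← h2, ← h3, ← h4, ← h5, ← h6, ← h7,
        ← h8] <;> ring
  have hdet : (!![r1 - r2, r3 - r4; r6 - r5, r8 - r7] : Matrix (Fin 2) (Fin 2) (𝓞 F)).det = 1 := by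
    apply FaithfulSMul.algebraMap_injective (𝓞 F) F
    rw [RingHom.map_det, map_one]
    change (Matrix.map _ _).det = 1
    rw [← hm]
    exact (g₀⁻¹ * g).2
  refine ⟨⟨_, hdet⟩, ?_⟩
  rw [← inv_mul_eq_iff_eq_mul]
  apply Subtype.ext
  rw [hm]
  rfl

end TypeJ

end Fermat.Agent.LT
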